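/-
S25 shared library, Lib/Curve (old package A0; helper10): nonzero ideals of Dedekind domains are invertible
modules; quotients of Dedekind domains of finite type over a field by nonzero ideals are
finite-dimensional.  Mathlib-only, complete proofs.
-/
import Mathlib

set_option autoImplicit false

universe u

namespace Fermat.Agent.S25.Lib.Curve

open scoped TensorProduct nonZeroDivisors

section Invertible

variable {A K : Type*} [CommRing A] [CommRing K] [Algebra A K]

/-- Two submodules of an overring with product `1` are mutually inverse invertible modules. -/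
theorem invertible_of_mul_eq_one (hinj : Function.Injective (algebraMap A K))
    (I J : Submodule A K) (h : I * J = 1) : Module.Invertible A I := by
  -- the multiplication map `I ⊗ J → K`
  let μ' : I ⊗[A] J →ₗ[A] K := TensorProduct.lift ((LinearMap.mul A K).domRestrict₁₂ I J)
  have hμ'_tmul : ∀ (a : I) (b : J), μ' (a ⊗ₜ[A] b) = (a : K) * (b : K) := fun a b => rfl
  have hrange : ∀ t, μ' t ∈ (algebraMap A K).range := by
    intro t
    induction t using TensorProduct.induction_on with
    | zero => rw [map_zero]; exact zero_mem _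
    | add x y hx hy => rw [map_add]; exact add_mem hx hy
    | tmul a b =>
      have h1 : (a : K) * (b : K) ∈ I * J := Submodule.mul_mem_mul a.2 b.2
      rw [h, Submodule.one_eq_range] at h1
      obtain ⟨c, hc⟩ := h1
      exact ⟨c, hc⟩
  have hsurj : ∃ t₁, μ' t₁ = 1 := by
    have h1 : (1 : K) ∈ I * J := by rw [h]; exact Submodule.one_le.mp le_rfl
    refine Submodule.mul_induction_on (C := fun r => ∃ t, μ' t = r) h1 ?_ ?_
    · intro m hm n hn
      exact ⟨(⟨m, hm⟩ : I) ⊗ₜ[A] (⟨n, hn⟩ : J), rfl⟩
    · rintro x y ⟨t, rfl⟩ ⟨t', rfl⟩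
      exact ⟨t + t', map_add _ _ _⟩
  choose μf hμf using hrange
  have hμf_add : ∀ t t', μf (t + t') = μf t + μf t' := fun t t' =>
    hinj (by rw [map_add, hμf, hμf, hμf, map_add])
  have hμf_smul : ∀ (c : A) t, μf (c • t) = c * μf t := fun c t =>
    hinj (by rw [map_mul, hμf, hμf, map_smul, Algebra.smul_def])
  have hμf_zero : μf 0 = 0 := hinj (by rw [hμf, map_zero, map_zero])
  have key : ∀ t t', μf t • t' = μf t' • t := by
    intro t t'
    induction t using TensorProduct.induction_on with
    | zero => rw [hμf_zero, zero_smul, smul_zero]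
    | add x y hx hy => rw [hμf_add, add_smul, smul_add, hx, hy]
    | tmul a b =>
      induction t' using TensorProduct.induction_on with
      | zero => rw [hμf_zero, zero_smul, smul_zero]
      | add x y hx hy => rw [hμf_add, add_smul, smul_add, hx, hy]
      | tmul x y =>
        have e1 : μf (a ⊗ₜ[A] b) • y = μf (a ⊗ₜ[A] y) • b := by
          apply Subtype.ext
          rw [Submodule.coe_smul, Submodule.coe_smul, Algebra.smul_def, Algebra.smul_def, hμf,
            hμf, hμ'_tmul, hμ'_tmul]
          ring
        have e2 : μf (a ⊗ₜ[A] y) • x = μf (x ⊗ₜ[A] y) • a := by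
          apply Subtype.ext
          rw [Submodule.coe_smul, Submodule.coe_smul, Algebra.smul_def, Algebra.smul_def, hμf,
            hμf, hμ'_tmul, hμ'_tmul]
          ring
        rw [← TensorProduct.tmul_smul, e1, ← TensorProduct.smul_tmul, e2,
          TensorProduct.smul_tmul']
  obtain ⟨t₁, ht₁⟩ := hsurj
  have hμf1 : μf t₁ = 1 := hinj (by rw [hμf, ht₁, map_one])
  let e : I ⊗[A] J ≃ₗ[A] A :=
    { toFun := μf
      map_add' := hμf_add
      map_smul' := fun c t => by rw [hμf_smul]; rfl
      invFun := fun c => c • t₁
      left_inv := fun t => by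
        change μf t • t₁ = t
        rw [key, hμf1, one_smul]
      right_inv := fun c => by
        change μf (c • t₁) = c
        rw [hμf_smul, hμf1, mul_one] }
  exact Module.Invertible.left e

/-- Every nonzero ideal of a Dedekind domain is an invertible module. -/
theorem invertible_ideal_of_isDedekindDomain {D : Type*} [CommRing D] [IsDedekindDomain D]
    (I : Ideal D) (hI : I ≠ ⊥) : Module.Invertible D I := by
  let F := FractionRing D
  have hinj : Function.Injective (algebraMap D F) := IsFractionRing.injective D F
  have h1 : (I : FractionalIdeal D⁰ F) * (I : FractionalIdeal D⁰ F)⁻¹ = 1 :=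
    FractionalIdeal.coe_ideal_mul_inv I hI
  have h2 : ((I : FractionalIdeal D⁰ F) : Submodule D F) *
      (((I : FractionalIdeal D⁰ F)⁻¹ : FractionalIdeal D⁰ F) : Submodule D F) = 1 := by
    rw [← FractionalIdeal.coe_mul, h1, FractionalIdeal.coe_one]
  have h3 := invertible_of_mul_eq_one hinj _ _ h2
  have h4 : ((I : FractionalIdeal D⁰ F) : Submodule D F) = Submodule.map (Algebra.linearMap D F) I :=
    rfl
  rw [h4] at h3
  let e : I ≃ₗ[D] Submodule.map (Algebra.linearMap D F) I :=
    Submodule.equivMapOfInjective (Algebra.linearMap D F) hinj I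
  exact Module.Invertible.congr e.symm

end Invertible

section FiniteQuotient

/-- The quotient of a Dedekind domain by a nonzero ideal has Krull dimension zero. -/
theorem krullDimLE_zero_quotient_of_isDedekindDomain {D : Type*} [CommRing D]
    [IsDedekindDomain D] (I : Ideal D) (hI : I ≠ ⊥) : Ring.KrullDimLE 0 (D ⧸ I) := by
  rw [Ideal.krullDimLE_zero_quotient_iff_forall_minimalPrimes_isMaximal]
  intro J hJ
  have hJp : J.IsPrime := hJ.1.1
  have hJ0 : J ≠ ⊥ := fun h0 => hI (le_bot_iff.mp (h0 ▸ hJ.1.2))
  exact hJp.isMaximal hJ0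

/-- The quotient of a Dedekind domain of finite type over a field by a nonzero ideal is
finite-dimensional. -/
theorem finite_quotient_of_isDedekindDomain {K D : Type*} [Field K] [CommRing D]
    [IsDedekindDomain D] [Algebra K D] [Algebra.FiniteType K D] (I : Ideal D) (hI : I ≠ ⊥) :
    Module.Finite K (D ⧸ I) := by
  have hft : Algebra.FiniteType K (D ⧸ I) :=
    Algebra.FiniteType.of_surjective (Ideal.Quotient.mkₐ K I) (Ideal.Quotient.mkₐ_surjective K I)
  have := krullDimLE_zero_quotient_of_isDedekindDomain I hI
  exact (Module.finite_iff_krullDimLE_zero K (D ⧸ I)).mpr this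

end FiniteQuotient

end Fermat.Agent.S25.Lib.Curve
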