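/-
S25 shared library, Lib/Curve (old package A0; helper10): a domain of finite type over an algebraically
closed field which is locally standard smooth of relative dimension one is a Dedekind domain;
maximal ideals are rational points.  Mathlib-only, complete proofs.
-/
import Mathlib

set_option autoImplicit false

universe u

namespace Fermat.Agent.S25.Lib.Curve

open scoped TensorProduct

section Points

variable {K A : Type*} [Field K] [CommRing A] [Algebra K A]

/-- The kernel of a rational point is a maximal ideal. -/
theorem isMaximal_ker_point (φ : A →ₐ[K] K) : (RingHom.ker φ).IsMaximal :=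
  RingHom.ker_isMaximal_of_surjective (φ : A →+* K) (fun x => ⟨algebraMap K A x, by simp⟩)

/-- A rational point is determined by its kernel. -/
theorem point_ext_of_ker_eq {φ ψ : A →ₐ[K] K} (h : RingHom.ker φ = RingHom.ker ψ) : φ = ψ := by
  ext a
  have h1 : a - algebraMap K A (φ a) ∈ RingHom.ker φ := by
    rw [RingHom.mem_ker, map_sub, AlgHom.commutes]
    simp
  rw [h, RingHom.mem_ker, map_sub, AlgHom.commutes] at h1
  have h2 : ψ a = φ a := by simpa [sub_eq_zero] using h1
  exact h2.symm

/-- Nullstellensatz: the residue field at a maximal ideal of a finitely generated algebra over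
an algebraically closed field is the base field. -/
theorem bijective_algebraMap_quotient_of_isMaximal [IsAlgClosed K] [Algebra.FiniteType K A]
    (m : Ideal A) [m.IsMaximal] : Function.Bijective (algebraMap K (A ⧸ m)) := by
  let _ : Field (A ⧸ m) := Ideal.Quotient.field m
  have hft : Algebra.FiniteType K (A ⧸ m) :=
    Algebra.FiniteType.of_surjective (Ideal.Quotient.mkₐ K m) (Ideal.Quotient.mkₐ_surjective K m)
  have hfin : Module.Finite K (A ⧸ m) := finite_of_finite_type_of_isJacobsonRing K _
  exact IsAlgClosed.algebraMap_bijective_of_isIntegral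

/-- Nullstellensatz: every maximal ideal of a finitely generated algebra over an algebraically
closed field is the kernel of a rational point. -/
theorem exists_point_ker_eq_of_isMaximal [IsAlgClosed K] [Algebra.FiniteType K A]
    (m : Ideal A) [m.IsMaximal] : ∃ φ : A →ₐ[K] K, RingHom.ker φ = m := by
  have hbij := bijective_algebraMap_quotient_of_isMaximal (K := K) m
  let e : K ≃ₐ[K] (A ⧸ m) := AlgEquiv.ofBijective (Algebra.ofId K _) hbij
  refine ⟨(e.symm : (A ⧸ m) →ₐ[K] K).comp (Ideal.Quotient.mkₐ K m), ?_⟩
  ext a
  simp only [RingHom.mem_ker, AlgHom.coe_comp, AlgEquiv.coe_toAlgHom, Function.comp_apply,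
    Ideal.Quotient.mkₐ_eq_mk, EmbeddingLike.map_eq_zero_iff, Ideal.Quotient.eq_zero_iff_mem]

/-- Nullstellensatz: maximal ideals correspond bijectively to rational points. -/
theorem existsUnique_point_ker_eq_of_isMaximal [IsAlgClosed K] [Algebra.FiniteType K A]
    (m : Ideal A) [m.IsMaximal] : ∃! φ : A →ₐ[K] K, RingHom.ker φ = m := by
  obtain ⟨φ, hφ⟩ := exists_point_ker_eq_of_isMaximal (K := K) m
  exact ⟨φ, hφ, fun ψ hψ => point_ext_of_ker_eq (hψ.trans hφ.symm)⟩

end Points

section Cotangent

variable {K A : Type*} [Field K] [CommRing A] [Algebra K A]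

theorem surjective_algebraMap_of_tower [Algebra A K] [IsScalarTower K A K] :
    Function.Surjective (algebraMap A K) := fun x =>
  ⟨algebraMap K A x, by rw [← IsScalarTower.algebraMap_apply]; rfl⟩

/-- At a rational point `A → K` of a formally smooth `K`-algebra, the cotangent space
`𝔪/𝔪²` is identified with the fibre `K ⊗ Ω` of the module of differentials. -/
theorem bijective_kerCotangentToTensor_of_point [Algebra.FormallySmooth K A] [Algebra A K]
    [IsScalarTower K A K] :
    Function.Bijective (KaehlerDifferential.kerCotangentToTensor K A K) := by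
  have hsurj : Function.Surjective (algebraMap A K) := surjective_algebraMap_of_tower
  constructor
  · obtain ⟨l, hl⟩ := (Algebra.FormallySmooth.iff_split_injection (R := K) (P := A) (A := K)
      hsurj).mp inferInstance
    exact Function.LeftInverse.injective (g := l) (fun x => LinearMap.congr_fun hl x)
  · intro y
    exact (KaehlerDifferential.exact_kerCotangentToTensor_mapBaseChange K A K hsurj y).mp
      (Subsingleton.elim _ _)

/-- The fibre of the differentials of a standard smooth algebra of relative dimension one at a
rational point is one-dimensional. -/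
theorem finrank_tensor_kaehler_of_isStandardSmooth [Algebra A K] [IsScalarTower K A K]
    [Algebra.IsStandardSmoothOfRelativeDimension 1 K A] :
    Module.finrank K (K ⊗[A] Ω[A⁄K]) = 1 := by
  have hnt : Nontrivial A := (algebraMap A K).domain_nontrivial
  have hss : Algebra.IsStandardSmooth K A :=
    Algebra.IsStandardSmoothOfRelativeDimension.isStandardSmooth 1
  rw [Module.finrank_baseChange]
  have h := Algebra.IsStandardSmoothOfRelativeDimension.rank_kaehlerDifferential (R := K) (S := A) 1
  exact Module.finrank_eq_of_rank_eq h


section

variable {K A : Type u} [Field K] [CommRing A] [Algebra K A]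

/-- The fibre of the differentials of a locally standard smooth algebra of relative dimension
one at a rational point is one-dimensional. -/
theorem finrank_tensor_kaehler_of_locally
    (h : RingHom.Locally (RingHom.IsStandardSmoothOfRelativeDimension 1) (algebraMap K A))
    [Algebra A K] [IsScalarTower K A K] :
    Module.finrank K (K ⊗[A] Ω[A⁄K]) = 1 := by
  obtain ⟨s, hs, hP⟩ := h
  obtain ⟨t, hts, ht⟩ : ∃ t ∈ s, algebraMap A K t ≠ 0 := by
    by_contra hcon
    push Not at hcon
    have hle : Ideal.span s ≤ RingHom.ker (algebraMap A K) :=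
      Ideal.span_le.mpr fun x hx => RingHom.mem_ker.mpr (hcon x hx)
    rw [hs] at hle
    have h1 : (1 : A) ∈ RingHom.ker (algebraMap A K) := hle Submodule.mem_top
    rw [RingHom.mem_ker, map_one] at h1
    exact one_ne_zero h1
  have hst : Algebra.IsStandardSmoothOfRelativeDimension 1 K (Localization.Away t) := by
    rw [← RingHom.isStandardSmoothOfRelativeDimension_algebraMap]
    exact hP t hts
  have hu : IsUnit (algebraMap A K t) := IsUnit.mk0 _ ht
  let _ : Algebra (Localization.Away t) K :=
    (IsLocalization.Away.lift (S := Localization.Away t) t hu).toAlgebra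
  have hmap : ∀ a : A, algebraMap (Localization.Away t) K (algebraMap A (Localization.Away t) a)
      = algebraMap A K a := fun a => IsLocalization.Away.lift_eq t hu a
  have : IsScalarTower A (Localization.Away t) K :=
    IsScalarTower.of_algebraMap_eq fun a => (hmap a).symm
  have : IsScalarTower K (Localization.Away t) K :=
    IsScalarTower.of_algebraMap_eq fun c => by
      rw [IsScalarTower.algebraMap_apply K A (Localization.Away t), hmap,
        ← IsScalarTower.algebraMap_apply]
  let e1 : (Localization.Away t) ⊗[A] Ω[A⁄K] ≃ₗ[Localization.Away t] Ω[Localization.Away t⁄K] :=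
    KaehlerDifferential.tensorKaehlerEquivOfFormallyEtale K A (Localization.Away t)
  let e2 : K ⊗[Localization.Away t] ((Localization.Away t) ⊗[A] Ω[A⁄K]) ≃ₗ[K]
      K ⊗[Localization.Away t] Ω[Localization.Away t⁄K] :=
    TensorProduct.AlgebraTensorModule.congr (LinearEquiv.refl K K) e1
  let e3 : K ⊗[Localization.Away t] ((Localization.Away t) ⊗[A] Ω[A⁄K]) ≃ₗ[K] K ⊗[A] Ω[A⁄K] :=
    TensorProduct.AlgebraTensorModule.cancelBaseChange A (Localization.Away t) K K Ω[A⁄K]
  rw [← (e3.symm.trans e2).symm.finrank_eq]
  exact finrank_tensor_kaehler_of_isStandardSmooth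

end

end Cotangent

section DVR

variable {K A : Type*} [Field K] [CommRing A] [Algebra K A]

/-- If the cotangent space at a rational point is at most one-dimensional, the maximal ideal
is generated by one element modulo its square. -/
theorem exists_le_span_sup_sq_of_point [Algebra A K] [IsScalarTower K A K]
    (hbij : Function.Bijective (KaehlerDifferential.kerCotangentToTensor K A K))
    (hrank : Module.finrank K (K ⊗[A] Ω[A⁄K]) = 1) :
    ∃ t ∈ RingHom.ker (algebraMap A K), t ≠ 0 ∧
      RingHom.ker (algebraMap A K) ≤ Ideal.span {t} ⊔ RingHom.ker (algebraMap A K) ^ 2 := by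
  obtain ⟨v, hv0, hv⟩ := finrank_eq_one_iff'.mp hrank
  obtain ⟨c, hc⟩ := hbij.2 v
  obtain ⟨t, rfl⟩ := Ideal.toCotangent_surjective _ c
  refine ⟨t.1, t.2, ?_, ?_⟩
  · intro ht0
    apply hv0
    have : t = 0 := Subtype.ext ht0
    rw [← hc, this, map_zero, map_zero]
  · intro x hx
    obtain ⟨c, hc'⟩ := hv (KaehlerDifferential.kerCotangentToTensor K A K
      (Ideal.toCotangent _ ⟨x, hx⟩))
    obtain ⟨a, rfl⟩ : ∃ a : A, algebraMap A K a = c := by
      refine ⟨algebraMap K A c, ?_⟩
      rw [← IsScalarTower.algebraMap_apply]; rfl
    have h1 : KaehlerDifferential.kerCotangentToTensor K A K (Ideal.toCotangent _ (a • t)) =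
        KaehlerDifferential.kerCotangentToTensor K A K (Ideal.toCotangent _ ⟨x, hx⟩) := by
      rw [← hc', map_smul, map_smul, hc, algebraMap_smul]
    have h2 := hbij.1 h1
    rw [Ideal.toCotangent_eq] at h2
    have h3 : x = a * t.1 + -(a * t.1 - x) := by ring
    rw [h3]
    refine Ideal.add_mem _ (Ideal.mem_sup_left (Ideal.mul_mem_left _ _
      (Ideal.subset_span rfl))) (Ideal.mem_sup_right (Ideal.neg_mem_iff _ |>.mpr ?_))
    simpa using h2

/-- A noetherian domain whose maximal ideal `m` is generated by one nonzero element modulo
`m ^ 2` has a discrete valuation ring as localisation at `m`. -/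
theorem isDiscreteValuationRing_localization_of_le_span_sup_sq [IsDomain A] [IsNoetherianRing A]
    (m : Ideal A) [m.IsPrime] (t : A) (htm : t ∈ m) (ht0 : t ≠ 0)
    (hle : m ≤ Ideal.span {t} ⊔ m ^ 2) :
    IsDiscreteValuationRing (Localization.AtPrime m) := by
  set L := Localization.AtPrime m
  have hinj : Function.Injective (algebraMap A L) :=
    IsLocalization.injective L m.primeCompl_le_nonZeroDivisors
  have hmax : IsLocalRing.maximalIdeal L = Ideal.map (algebraMap A L) m :=
    Localization.AtPrime.map_eq_maximalIdeal.symm
  have h1 : IsLocalRing.maximalIdeal L ≤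
      Ideal.span {algebraMap A L t} ⊔ IsLocalRing.maximalIdeal L • IsLocalRing.maximalIdeal L := by
    calc IsLocalRing.maximalIdeal L = Ideal.map (algebraMap A L) m := hmax
      _ ≤ Ideal.map (algebraMap A L) (Ideal.span {t} ⊔ m ^ 2) := Ideal.map_mono hle
      _ = Ideal.span {algebraMap A L t} ⊔
          IsLocalRing.maximalIdeal L • IsLocalRing.maximalIdeal L := by
        rw [Ideal.map_sup, Ideal.map_span, Set.image_singleton, Ideal.map_pow, ← hmax,
          smul_eq_mul, pow_two]
  have h2 : IsLocalRing.maximalIdeal L ≤ Ideal.span {algebraMap A L t} :=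
    Submodule.le_of_le_smul_of_le_jacobson_bot (IsNoetherian.noetherian _)
      (IsLocalRing.maximalIdeal_le_jacobson _) h1
  have h3 : Ideal.span {algebraMap A L t} ≤ IsLocalRing.maximalIdeal L := by
    rw [Ideal.span_singleton_le_iff_mem, hmax]
    exact Ideal.mem_map_of_mem _ htm
  have h4 : IsLocalRing.maximalIdeal L = Ideal.span {algebraMap A L t} := le_antisymm h2 h3
  have hnf : ¬ IsField L := by
    rw [IsLocalRing.isField_iff_maximalIdeal_eq, h4, Ideal.span_singleton_eq_bot]
    intro h0
    exact ht0 (hinj (by rw [h0, map_zero]))
  have hp : (IsLocalRing.maximalIdeal L).IsPrincipal := ⟨⟨_, h4⟩⟩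
  exact ((IsDiscreteValuationRing.TFAE L hnf).out 0 4).mpr hp

end DVR

section Dedekind

variable {K A : Type u} [Field K] [CommRing A] [Algebra K A]

/-- A locally standard smooth algebra is formally smooth. -/
theorem formallySmooth_of_locally {n : ℕ}
    (h : RingHom.Locally (RingHom.IsStandardSmoothOfRelativeDimension n) (algebraMap K A)) :
    Algebra.FormallySmooth K A := by
  have h1 : RingHom.Locally RingHom.IsStandardSmooth (algebraMap K A) :=
    RingHom.locally_of_locally (fun hf => hf.isStandardSmooth) h
  have h2 : (algebraMap K A).Smooth := RingHom.smooth_iff_locally_isStandardSmooth.mpr h1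
  exact RingHom.formallySmooth_algebraMap.mp h2.formallySmooth

/-- The local ring of a smooth curve at a rational point is a discrete valuation ring. -/
theorem isDiscreteValuationRing_localization_of_point [IsDomain A] [IsNoetherianRing A]
    (h : RingHom.Locally (RingHom.IsStandardSmoothOfRelativeDimension 1) (algebraMap K A))
    (m : Ideal A) [m.IsPrime] (φ : A →ₐ[K] K) (hφ : RingHom.ker φ = m) :
    IsDiscreteValuationRing (Localization.AtPrime m) := by
  let _ : Algebra A K := (φ : A →+* K).toAlgebra
  have : IsScalarTower K A K := IsScalarTower.of_algebraMap_eq fun c => (φ.commutes c).symm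
  have : Algebra.FormallySmooth K A := formallySmooth_of_locally h
  have hbij := bijective_kerCotangentToTensor_of_point (K := K) (A := A)
  have hrank := finrank_tensor_kaehler_of_locally h
  obtain ⟨t, htm, ht0, hle⟩ := exists_le_span_sup_sq_of_point hbij hrank
  have hker : RingHom.ker (algebraMap A K) = m := hφ
  rw [hker] at htm hle
  exact isDiscreteValuationRing_localization_of_le_span_sup_sq m t htm ht0 hle

/-- A domain of finite type over an algebraically closed field, locally standard smooth of
relative dimension one, is a Dedekind domain. -/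
theorem isDedekindDomain_of_locally_isStandardSmooth [IsAlgClosed K] [IsDomain A]
    [Algebra.FiniteType K A]
    (h : RingHom.Locally (RingHom.IsStandardSmoothOfRelativeDimension 1) (algebraMap K A)) :
    IsDedekindDomain A := by
  have hN : IsNoetherianRing A := Algebra.FiniteType.isNoetherianRing K A
  have hdvr : ∀ (m : Ideal A) [m.IsMaximal], IsDiscreteValuationRing (Localization.AtPrime m) := by
    intro m hm
    obtain ⟨φ, hφ⟩ := exists_point_ker_eq_of_isMaximal (K := K) m
    exact isDiscreteValuationRing_localization_of_point h m φ hφ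
  have : IsDedekindDomainDvr A := by
    refine { is_dvr_at_nonzero_prime := ?_ }
    intro P hP0 hPp
    obtain ⟨m, hm, hPm⟩ := P.exists_le_maximal hPp.ne_top
    have := hdvr m
    suffices hPm' : P = m by
      subst hPm'
      exact this
    set L := Localization.AtPrime m
    have hinj : Function.Injective (algebraMap A L) :=
      IsLocalization.injective L m.primeCompl_le_nonZeroDivisors
    have hdisj : Disjoint (m.primeCompl : Set A) (P : Set A) :=
      Set.disjoint_left.mpr fun x hx hxP => hx (hPm hxP)
    have hprime : (Ideal.map (algebraMap A L) P).IsPrime :=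
      IsLocalization.isPrime_of_isPrime_disjoint m.primeCompl L P hPp hdisj
    have hne : Ideal.map (algebraMap A L) P ≠ ⊥ := fun h0 =>
      hP0 ((Ideal.map_eq_bot_iff_of_injective hinj).mp h0)
    have hmax : (Ideal.map (algebraMap A L) P).IsMaximal := hprime.isMaximal hne
    have h1 : Ideal.map (algebraMap A L) P = IsLocalRing.maximalIdeal L :=
      IsLocalRing.eq_maximalIdeal hmax
    have h2 : Ideal.comap (algebraMap A L) (Ideal.map (algebraMap A L) P) = P :=
      IsLocalization.under_map_of_isPrime_disjoint m.primeCompl L hPp hdisj
    rw [← h2, h1]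
    exact IsLocalization.AtPrime.under_maximalIdeal L m
  exact IsDedekindDomainDvr.isDedekindDomain A

/-- The local ring at a maximal ideal of a smooth affine curve over an algebraically closed
field is a discrete valuation ring. -/
theorem isDiscreteValuationRing_localization_of_isMaximal [IsAlgClosed K] [IsDomain A]
    [Algebra.FiniteType K A]
    (h : RingHom.Locally (RingHom.IsStandardSmoothOfRelativeDimension 1) (algebraMap K A))
    (m : Ideal A) [m.IsMaximal] : IsDiscreteValuationRing (Localization.AtPrime m) := by
  have hN : IsNoetherianRing A := Algebra.FiniteType.isNoetherianRing K A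
  obtain ⟨φ, hφ⟩ := exists_point_ker_eq_of_isMaximal (K := K) m
  exact isDiscreteValuationRing_localization_of_point h m φ hφ

end Dedekind

end Fermat.Agent.S25.Lib.Curve
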