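/-
S25 shared library, Lib/Curve (old package A0; helper10): the coordinate ring of an affine curve finite over
`K[f]` is free over `K[f]`, with an explicit basis stable under base change.
Mathlib-only, complete proofs.
-/
import Mathlib
import Fermat.Agent.S25.Lib.Curve.Dedekind
import Fermat.Agent.S25.Lib.Curve.TensorDomain

set_option autoImplicit false

universe u

namespace Fermat.Agent.S25.Lib.Curve

open scoped TensorProduct Polynomial

section Free

/-- An algebra finite over the subalgebra generated by one element is of finite type. -/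
theorem finiteType_of_finite_adjoin_singleton {K A : Type*} [CommRing K] [CommRing A]
    [Algebra K A] (f : A) [Module.Finite (Algebra.adjoin K ({f} : Set A)) A] :
    Algebra.FiniteType K A := by
  have h1 : Algebra.FiniteType K (Algebra.adjoin K ({f} : Set A)) :=
    (Subalgebra.fg_iff_finiteType _).mp ⟨{f}, by simp⟩
  exact Algebra.FiniteType.trans h1 inferInstance

/-- On a smooth curve with a rational point, an element `f` such that the coordinate ring is
finite over `K[f]` is transcendental. -/
theorem transcendental_of_finite_adjoin_singleton {K A : Type u} [Field K] [CommRing A]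
    [IsDomain A] [Algebra K A]
    (h : RingHom.Locally (RingHom.IsStandardSmoothOfRelativeDimension 1) (algebraMap K A))
    (φ : A →ₐ[K] K) (f : A) [Module.Finite (Algebra.adjoin K ({f} : Set A)) A] :
    Transcendental K f := by
  intro halg
  have hint : IsIntegral K f := isAlgebraic_iff_isIntegral.mp halg
  have hfin1 : Module.Finite K (Algebra.adjoin K ({f} : Set A)) :=
    Module.Finite.iff_fg.mpr hint.fg_adjoin_singleton
  have hfin : Module.Finite K A := Module.Finite.trans (Algebra.adjoin K ({f} : Set A)) A
  have hfield : IsField A := isField_of_isIntegral_of_isField' (R := K) (Field.toIsField K)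
  let _ : Field A := hfield.toField
  have hinj : Function.Injective φ := (φ : A →+* K).injective
  have hsurj : Function.Surjective (algebraMap K A) := fun a =>
    ⟨φ a, hinj (by rw [AlgHom.commutes]; rfl)⟩
  have hsub : Subsingleton Ω[A⁄K] := KaehlerDifferential.subsingleton_of_surjective K A hsurj
  let _ : Algebra A K := (φ : A →+* K).toAlgebra
  have : IsScalarTower K A K := IsScalarTower.of_algebraMap_eq fun c => (φ.commutes c).symm
  have h1 := finrank_tensor_kaehler_of_locally h
  have h0 : Module.finrank K (K ⊗[A] Ω[A⁄K]) = 0 := Module.finrank_zero_of_subsingleton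
  omega

/-- A domain finite over `K[f]` with `f` transcendental is free over `K[f]`: explicit form. -/
theorem exists_basis_over_polynomial {K A : Type*} [Field K] [CommRing A] [IsDomain A]
    [Algebra K A] (f : A) [Module.Finite (Algebra.adjoin K ({f} : Set A)) A]
    (hf : Transcendental K f) :
    ∃ (n : ℕ) (b : Fin n → A),
      Function.Bijective (fun p : Fin n → K[X] => ∑ i, Polynomial.aeval f (p i) * b i) := by
  let _ : Algebra K[X] A := (Polynomial.aeval f).toRingHom.toAlgebra
  have hsmul : ∀ (p : K[X]) (a : A), p • a = Polynomial.aeval f p * a := fun p a => rfl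
  have hfin : Module.Finite K[X] A := by
    obtain ⟨S, hS⟩ := Module.finite_def.mp ‹Module.Finite (Algebra.adjoin K ({f} : Set A)) A›
    refine ⟨⟨S, ?_⟩⟩
    have key : ∀ x ∈ Submodule.span (Algebra.adjoin K ({f} : Set A)) (S : Set A),
        x ∈ Submodule.span K[X] (S : Set A) := by
      intro x hx
      induction hx using Submodule.span_induction with
      | mem x hx => exact Submodule.subset_span hx
      | zero => exact zero_mem _
      | add x y _ _ hx hy => exact add_mem hx hy
      | smul a x _ hx =>
        obtain ⟨p, hp⟩ : ∃ p : K[X], Polynomial.aeval f p = a.1 := by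
          have h2 : a.1 ∈ (Polynomial.aeval f : K[X] →ₐ[K] A).range :=
            Algebra.adjoin_singleton_eq_range_aeval K f ▸ a.2
          exact h2
        have h1 : a • x = p • x := by rw [hsmul, hp]; rfl
        rw [h1]
        exact Submodule.smul_mem _ _ hx
    rw [eq_top_iff]
    intro x _
    exact key x (hS ▸ Submodule.mem_top)
  have htf : Module.IsTorsionFree K[X] A :=
    Module.isTorsionFree_iff_algebraMap_injective.mpr (transcendental_iff_injective.mp hf)
  have hfree : Module.Free K[X] A := Module.free_of_finite_type_torsion_free'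
  let bb := Module.finBasis K[X] A
  refine ⟨_, bb, ?_⟩
  have : (fun p : Fin (Module.finrank K[X] A) → K[X] => ∑ i, Polynomial.aeval f (p i) * bb i) =
      bb.equivFun.symm := by
    funext p
    rw [Module.Basis.equivFun_symm_apply]
    rfl
  rw [this]
  exact bb.equivFun.symm.bijective

/-- Freeness over `K[f]` with an explicit basis is stable under base change. -/
theorem bijective_baseChange_of_bijective {K A : Type*} [CommRing K] [CommRing A] [Algebra K A]
    (f : A) {n : ℕ} (b : Fin n → A)
    (hb : Function.Bijective (fun p : Fin n → K[X] => ∑ i, Polynomial.aeval f (p i) * b i))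
    (R : Type*) [CommRing R] [Algebra K R] :
    Function.Bijective (fun p : Fin n → R[X] =>
      ∑ i, Polynomial.aeval ((1 : R) ⊗ₜ[K] f) (p i) * ((1 : R) ⊗ₜ[K] b i)) := by
  classical
  let ψ : (Fin n → K[X]) →ₗ[K] A :=
    ∑ i, (LinearMap.mulRight K (b i)) ∘ₗ (Polynomial.aeval f).toLinearMap ∘ₗ LinearMap.proj i
  have hψ : ∀ p, ψ p = ∑ i, Polynomial.aeval f (p i) * b i := by
    intro p
    simp [ψ]
  have hψb : Function.Bijective ψ := by
    convert hb using 1
    funext p
    exact hψ p
  let e : (Fin n → K[X]) ≃ₗ[K] A := LinearEquiv.ofBijective ψ hψb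
  let E : R ⊗[K] (Fin n → K[X]) ≃ₗ[R] R ⊗[K] A := LinearEquiv.baseChange K R _ _ e
  let G : R ⊗[K] K[X] ≃ₗ[R] R[X] := (polyEquivTensor' K R).symm.toLinearEquiv
  let H : R ⊗[K] (Fin n → K[X]) ≃ₗ[R] (Fin n → R[X]) :=
    (TensorProduct.piRight K R R (fun _ : Fin n => K[X])).trans
      (LinearEquiv.piCongrRight fun _ => G)
  let Ψ : (Fin n → R[X]) →ₗ[R] R ⊗[K] A :=
    ∑ i, (LinearMap.mulRight R ((1 : R) ⊗ₜ[K] b i)) ∘ₗ
      (Polynomial.aeval ((1 : R) ⊗ₜ[K] f)).toLinearMap ∘ₗ LinearMap.proj i
  have hΨ : ∀ p, Ψ p = ∑ i, Polynomial.aeval ((1 : R) ⊗ₜ[K] f) (p i) * ((1 : R) ⊗ₜ[K] b i) := by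
    intro p
    simp [Ψ]
  have haev : ∀ (r : R) (q : K[X]), Polynomial.aeval ((1 : R) ⊗ₜ[K] f) (G (r ⊗ₜ[K] q)) =
      r ⊗ₜ[K] Polynomial.aeval f q := by
    intro r q
    have h1 : G (r ⊗ₜ[K] q) = r • Polynomial.map (algebraMap K R) q := by
      simp [G, polyEquivTensor_symm_apply_tmul_eq_smul]
    rw [h1, map_smul, Polynomial.aeval_map_algebraMap]
    have h2 : ((1 : R) ⊗ₜ[K] f : R ⊗[K] A) =
        (Algebra.TensorProduct.includeRight : A →ₐ[K] R ⊗[K] A) f := rfl
    rw [h2, Polynomial.aeval_algHom_apply, Algebra.TensorProduct.includeRight_apply,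
      TensorProduct.smul_tmul', smul_eq_mul, mul_one]
  have hcomp : ∀ x, Ψ (H x) = E x := by
    intro x
    induction x using TensorProduct.induction_on with
    | zero => simp
    | add x y hx hy => rw [map_add, map_add, map_add, hx, hy]
    | tmul r q =>
      have hH : H (r ⊗ₜ[K] q) = fun i => G (r ⊗ₜ[K] q i) := by
        funext i
        simp [H, TensorProduct.piRight_apply, TensorProduct.piRightHom_tmul]
      rw [hΨ, hH]
      have hE : E (r ⊗ₜ[K] q) = r ⊗ₜ[K] ψ q := by
        simp [E, e]
      rw [hE, hψ, TensorProduct.tmul_sum]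
      refine Finset.sum_congr rfl fun i _ => ?_
      rw [haev, Algebra.TensorProduct.tmul_mul_tmul, mul_one]
  have hfun : (fun p : Fin n → R[X] =>
      ∑ i, Polynomial.aeval ((1 : R) ⊗ₜ[K] f) (p i) * ((1 : R) ⊗ₜ[K] b i)) = E ∘ H.symm := by
    funext p
    rw [← hΨ, Function.comp_apply, ← hcomp, LinearEquiv.apply_symm_apply]
  rw [hfun]
  exact E.bijective.comp H.symm.bijective

end Free

section InfinitePoints

/-- A domain of finite type over an algebraically closed field containing a transcendental
element has infinitely many rational points. -/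
theorem infinite_points_of_transcendental {K A : Type*} [Field K] [IsAlgClosed K] [CommRing A]
    [IsDomain A] [Algebra K A] [Algebra.FiniteType K A] (f : A) (hf : Transcendental K f) :
    Infinite (A →ₐ[K] K) := by
  by_contra hinf
  rw [not_infinite_iff_finite] at hinf
  have := Fintype.ofFinite (A →ₐ[K] K)
  let h : A := ∏ ψ : A →ₐ[K] K, (f - algebraMap K A (ψ f))
  have hne : h ≠ 0 := by
    rw [Finset.prod_ne_zero_iff]
    intro ψ _ h0
    apply hf
    rw [sub_eq_zero.mp h0]
    exact isAlgebraic_algebraMap _
  have hnil : ¬ IsNilpotent h := fun hn => hne hn.eq_zero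
  obtain ⟨φ, hφ⟩ := exists_algHom_apply_ne_zero (k := K) hnil
  apply hφ
  rw [map_prod]
  refine Finset.prod_eq_zero (Finset.mem_univ φ) ?_
  rw [map_sub, AlgHom.commutes]
  simp

/-- Same, for points with values in an extension field. -/
theorem infinite_points_of_transcendental' {K A : Type*} [Field K] [IsAlgClosed K] [CommRing A]
    [IsDomain A] [Algebra K A] [Algebra.FiniteType K A] (f : A) (hf : Transcendental K f)
    (κ : Type*) [Field κ] [Algebra K κ] : Infinite (A →ₐ[K] κ) := by
  have := infinite_points_of_transcendental f hf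
  refine Infinite.of_injective (fun φ : A →ₐ[K] K => (Algebra.ofId K κ).comp φ) ?_
  intro φ ψ hφψ
  ext a
  have h1 := congrArg (fun χ : A →ₐ[K] κ => χ a) hφψ
  exact (algebraMap K κ).injective h1

end InfinitePoints

end Fermat.Agent.S25.Lib.Curve

/-! ### Appended (v2): the zero locus of `f` -/

namespace Fermat.Agent.S25.Lib.Curve

section Vanishing

variable {K A : Type*} [Field K] [CommRing A] [Algebra K A]

/-- If `A` is finite over `K[f]` then `A ⧸ (f)` is finite-dimensional over `K`. -/
theorem finite_quotient_span_singleton (f : A) [Module.Finite (Algebra.adjoin K ({f} : Set A)) A] :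
    Module.Finite K (A ⧸ Ideal.span ({f} : Set A)) := by
  classical
  obtain ⟨S, hS⟩ := Module.finite_def.mp ‹Module.Finite (Algebra.adjoin K ({f} : Set A)) A›
  refine ⟨⟨S.image (Ideal.Quotient.mk (Ideal.span ({f} : Set A))), ?_⟩⟩
  rw [eq_top_iff]
  rintro x -
  obtain ⟨a, rfl⟩ := Ideal.Quotient.mk_surjective x
  have ha : a ∈ Submodule.span (Algebra.adjoin K ({f} : Set A)) (S : Set A) :=
    hS ▸ Submodule.mem_top
  -- every element of `K[f]` is congruent to a constant modulo `f`
  have hconst : ∀ c ∈ Algebra.adjoin K ({f} : Set A), ∃ c₀ : K,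
      Ideal.Quotient.mk (Ideal.span ({f} : Set A)) c =
        algebraMap K (A ⧸ Ideal.span ({f} : Set A)) c₀ := by
    intro c hc
    induction hc using Algebra.adjoin_induction with
    | mem b hb =>
      rw [Set.mem_singleton_iff] at hb
      subst hb
      exact ⟨0, by
        rw [map_zero]
        exact Ideal.Quotient.eq_zero_iff_mem.mpr (Ideal.subset_span rfl)⟩
    | algebraMap c => exact ⟨c, rfl⟩
    | add a b _ _ ha hb =>
      obtain ⟨a₀, ha₀⟩ := ha
      obtain ⟨b₀, hb₀⟩ := hb
      exact ⟨a₀ + b₀, by rw [map_add, ha₀, hb₀, map_add]⟩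
    | mul a b _ _ ha hb =>
      obtain ⟨a₀, ha₀⟩ := ha
      obtain ⟨b₀, hb₀⟩ := hb
      exact ⟨a₀ * b₀, by rw [map_mul, ha₀, hb₀, map_mul]⟩
  induction ha using Submodule.span_induction with
  | mem e he =>
    apply Submodule.subset_span
    rw [Finset.coe_image]
    exact ⟨e, he, rfl⟩
  | zero => rw [map_zero]; exact zero_mem _
  | add a b _ _ ha hb => rw [map_add]; exact add_mem ha hb
  | smul c a _ ha =>
    obtain ⟨c₀, hc₀⟩ := hconst c.1 c.2
    have h1 : Ideal.Quotient.mk (Ideal.span ({f} : Set A)) (c • a) =
        c₀ • Ideal.Quotient.mk (Ideal.span ({f} : Set A)) a := by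
      change Ideal.Quotient.mk (Ideal.span ({f} : Set A)) ((c : A) * a) = _
      rw [map_mul, hc₀, Algebra.smul_def]
    rw [h1]
    exact Submodule.smul_mem _ _ ha

/-- If `A` is finite over `K[f]`, only finitely many points (with values in any field
extension) lie on the zero locus of `f`. -/
theorem finite_points_vanishing (f : A) [Module.Finite (Algebra.adjoin K ({f} : Set A)) A]
    (κ : Type*) [Field κ] [Algebra K κ] : Finite {x : A →ₐ[K] κ // x f = 0} := by
  have := finite_quotient_span_singleton (K := K) f
  let Φ : {x : A →ₐ[K] κ // x f = 0} → ((A ⧸ Ideal.span ({f} : Set A)) →ₐ[K] κ) := fun x =>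
    Ideal.Quotient.liftₐ (Ideal.span ({f} : Set A)) x.1 (by
      intro a ha
      have h1 : Ideal.span ({f} : Set A) ≤ RingHom.ker (x.1 : A →+* κ) := by
        rw [Ideal.span_le]
        rintro _ rfl
        exact RingHom.mem_ker.mpr x.2
      exact RingHom.mem_ker.mp (h1 ha))
  have hΦ : Function.Injective Φ := by
    intro x y hxy
    apply Subtype.ext
    ext a
    have h1 : ∀ z : {x : A →ₐ[K] κ // x f = 0},
        Φ z (Ideal.Quotient.mk (Ideal.span ({f} : Set A)) a) = z.1 a := fun z => rfl
    have h2 : Φ x (Ideal.Quotient.mk (Ideal.span ({f} : Set A)) a) =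
        Φ y (Ideal.Quotient.mk (Ideal.span ({f} : Set A)) a) := by rw [hxy]
    exact (h1 x).symm.trans (h2.trans (h1 y))
  exact Finite.of_injective Φ hΦ

end Vanishing

end Fermat.Agent.S25.Lib.Curve
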