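/-
S25 shared library, Lib/Curve (old package A0; helper10): points of `R ⊗[k] A` and their kernel ideals;
over an algebraically closed field the maximal ideals are exactly the kernels of points.
Complete proofs.
-/
import Mathlib
import Fermat.Agent.S25.Lib.Curve.Dedekind

set_option autoImplicit false

universe u

namespace Fermat.Agent.S25.Lib.Curve

open scoped TensorProduct

section Points

variable {k A R : Type*} [CommRing k] [CommRing A] [CommRing R] [Algebra k A] [Algebra k R]

/-- The `R`-point of `R ⊗[k] A` attached to an `R`-valued point `x` of `A`. -/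
noncomputable def pointLift (x : A →ₐ[k] R) : R ⊗[k] A →ₐ[R] R :=
  Algebra.TensorProduct.lift (AlgHom.id R R) x (fun _ _ => Commute.all _ _)

@[simp]
theorem pointLift_tmul (x : A →ₐ[k] R) (r : R) (a : A) : pointLift x (r ⊗ₜ[k] a) = r * x a := by
  simp [pointLift]

theorem pointLift_injective : Function.Injective (pointLift : (A →ₐ[k] R) → _) := by
  intro x y h
  ext a
  have := congrArg (fun φ : R ⊗[k] A →ₐ[R] R => φ ((1 : R) ⊗ₜ[k] a)) h
  simpa using this

theorem exists_pointLift_eq (φ : R ⊗[k] A →ₐ[R] R) : ∃ x : A →ₐ[k] R, pointLift x = φ := by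
  refine ⟨(φ.restrictScalars k).comp Algebra.TensorProduct.includeRight, ?_⟩
  apply Algebra.TensorProduct.ext
  · ext
  · ext a
    simp [pointLift]

/-- The kernel of the point `pointLift x` is generated by the elements `x a ⊗ 1 - 1 ⊗ a`. -/
theorem ker_pointLift (x : A →ₐ[k] R) :
    RingHom.ker (pointLift x) =
      Ideal.span (Set.range fun a : A => x a ⊗ₜ[k] (1 : A) - (1 : R) ⊗ₜ[k] a) := by
  apply le_antisymm
  · have key : ∀ t : R ⊗[k] A, t - (pointLift x t) ⊗ₜ[k] (1 : A) ∈
        Ideal.span (Set.range fun a : A => x a ⊗ₜ[k] (1 : A) - (1 : R) ⊗ₜ[k] a) := by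
      intro t
      induction t using TensorProduct.induction_on with
      | zero => simp
      | add u v hu hv =>
        have : u + v - (pointLift x (u + v)) ⊗ₜ[k] (1 : A) =
            (u - (pointLift x u) ⊗ₜ[k] (1 : A)) + (v - (pointLift x v) ⊗ₜ[k] (1 : A)) := by
          rw [map_add, TensorProduct.add_tmul]; ring
        rw [this]
        exact add_mem hu hv
      | tmul r a =>
        have : r ⊗ₜ[k] a - (pointLift x (r ⊗ₜ[k] a)) ⊗ₜ[k] (1 : A) =
            -(r ⊗ₜ[k] (1 : A)) * (x a ⊗ₜ[k] (1 : A) - (1 : R) ⊗ₜ[k] a) := by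
          rw [pointLift_tmul, mul_sub, neg_mul, neg_mul, Algebra.TensorProduct.tmul_mul_tmul,
            Algebra.TensorProduct.tmul_mul_tmul, mul_one, mul_one, one_mul]
          ring
        rw [this]
        exact Ideal.mul_mem_left _ _ (Ideal.subset_span ⟨a, rfl⟩)
    intro t ht
    have h := key t
    rw [RingHom.mem_ker] at ht
    rwa [ht, TensorProduct.zero_tmul, sub_zero] at h
  · rw [Ideal.span_le]
    rintro _ ⟨a, rfl⟩
    simp [RingHom.mem_ker]


theorem isMaximal_ker_pointLift {κ : Type*} [Field κ] [Algebra k κ] (x : A →ₐ[k] κ) :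
    (RingHom.ker (pointLift x)).IsMaximal :=
  isMaximal_ker_point (pointLift x)

/-- Over an algebraically closed field `κ`, the maximal ideals of `κ ⊗[k] A` are exactly the
kernels of the `κ`-valued points of `A`. -/
theorem existsUnique_ker_pointLift_eq_of_isMaximal {κ : Type*} [Field κ] [IsAlgClosed κ]
    [Algebra k κ] [Algebra.FiniteType k A] (m : Ideal (κ ⊗[k] A)) [m.IsMaximal] :
    ∃! x : A →ₐ[k] κ, RingHom.ker (pointLift x) = m := by
  obtain ⟨φ, hφ, hφu⟩ := existsUnique_point_ker_eq_of_isMaximal (K := κ) m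
  obtain ⟨x, rfl⟩ := exists_pointLift_eq φ
  refine ⟨x, hφ, fun y hy => ?_⟩
  exact pointLift_injective (hφu (pointLift y) hy)

end Points

end Fermat.Agent.S25.Lib.Curve
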