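/-
S25 shared library, Lib/Curve (old package A0; helper10): the curve presentation `CurveData k`
and its family two-chart `𝒞.chart R` (frozen `Defs.lean`), `k` algebraically closed.

* chart rings: finite type, domains over domains, free over the base, `r_i` injective;
* `κ ⊗ A_i` and `(𝒞.chart κ).B_i` are Dedekind domains for algebraically closed `κ`
  (hence discrete valuation rings at maximal ideals); maximal ideals are the kernels of points;
* `f`, `g` transcendental; `rank₁`, `basis₁` (`rank₂`, `basis₂`): `R ⊗ A_i` is free over `R[f]`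
  (`R[g]`) on the basis `1 ⊗ basis_i`, for EVERY `k`-algebra `R` (explicit bijection form);
* infinitely many `k`-points on each chart.
Complete proofs.
-/
import Mathlib
import Fermat.Agent.S25.Defs
import Fermat.Agent.S25.Lib.Curve.FreeOverPoly
import Fermat.Agent.S25.Lib.Curve.DedekindInvertible
import Fermat.Agent.S25.Lib.Curve.Points

set_option autoImplicit false
set_option linter.style.haveILetI false
set_option linter.unusedSectionVars false

universe u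

namespace Fermat.Agent.S25.Lib.Curve

open Fermat.Agent.S25

open scoped TensorProduct Polynomial

/-! ### Facts valid over any field `k` -/

section General

variable {k : Type u} [Field k] (𝒞 : CurveData k)

theorem finiteType_A₁ : Algebra.FiniteType k 𝒞.A₁ :=
  haveI := 𝒞.fin₁
  finiteType_of_finite_adjoin_singleton 𝒞.f

theorem finiteType_A₂ : Algebra.FiniteType k 𝒞.A₂ :=
  haveI := 𝒞.fin₂
  finiteType_of_finite_adjoin_singleton 𝒞.g

/-- `r₂ g` is a unit of `A₁₂`. -/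
theorem isUnit_r₂_g : IsUnit (𝒞.r₂ 𝒞.g) :=
  IsUnit.of_mul_eq_one _ (by rw [mul_comm]; exact 𝒞.fg)

/-- `r₁ f` is a unit of `A₁₂`. -/
theorem isUnit_r₁_f : IsUnit (𝒞.r₁ 𝒞.f) :=
  IsUnit.of_mul_eq_one _ 𝒞.fg

/-- The ring of the overlap is a domain. -/
theorem isDomain_A₁₂ : IsDomain 𝒞.A₁₂ := by
  haveI := 𝒞.dom₁
  have hnt : Nontrivial 𝒞.A₁₂ := 𝒞.inj₁.nontrivial
  have hnz : NoZeroDivisors 𝒞.A₁₂ := by
    refine ⟨fun {x y} hxy => ?_⟩
    obtain ⟨a, n, rfl⟩ := 𝒞.surj₁ x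
    obtain ⟨b, m, rfl⟩ := 𝒞.surj₁ y
    have hu : IsUnit (𝒞.r₂ 𝒞.g ^ n * 𝒞.r₂ 𝒞.g ^ m) :=
      ((isUnit_r₂_g 𝒞).pow n).mul ((isUnit_r₂_g 𝒞).pow m)
    have h1 : 𝒞.r₁ (a * b) * (𝒞.r₂ 𝒞.g ^ n * 𝒞.r₂ 𝒞.g ^ m) = 0 := by
      rw [map_mul]
      linear_combination hxy
    have h2 : 𝒞.r₁ (a * b) = 0 := (hu.mul_left_eq_zero).mp h1
    have h3 : a * b = 0 := 𝒞.inj₁ (by rw [h2, map_zero])
    rcases mul_eq_zero.mp h3 with h | h
    · left; rw [h, map_zero, zero_mul]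
    · right; rw [h, map_zero, zero_mul]
  exact NoZeroDivisors.to_isDomain _

/-- Local standard smoothness of relative dimension one is stable under base change. -/
theorem locally_isStandardSmooth_tensor {A : Type u} [CommRing A] [Algebra k A]
    (h : RingHom.Locally (RingHom.IsStandardSmoothOfRelativeDimension 1) (algebraMap k A))
    (R : Type u) [CommRing R] [Algebra k R] :
    RingHom.Locally (RingHom.IsStandardSmoothOfRelativeDimension 1)
      (algebraMap R (R ⊗[k] A)) := by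
  have hbc := RingHom.locally_isStableUnderBaseChange
    RingHom.isStandardSmoothOfRelativeDimension_respectsIso
    (RingHom.isStandardSmoothOfRelativeDimension_isStableUnderBaseChange 1)
  letI : Algebra A (R ⊗[k] A) := Algebra.TensorProduct.rightAlgebra
  exact hbc k A R (R ⊗[k] A) h

/-- `f` is transcendental over `k`. -/
theorem transcendental_f : Transcendental k 𝒞.f :=
  haveI := 𝒞.dom₁
  haveI := 𝒞.fin₁
  transcendental_of_finite_adjoin_singleton 𝒞.smooth₁ 𝒞.ε 𝒞.f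

variable (R : Type u) [CommRing R] [Algebra k R]

theorem chart_r₁_injective : Function.Injective (𝒞.chart R).r₁ :=
  chart_aux_inj R 𝒞.r₁ 𝒞.inj₁

theorem chart_r₂_injective : Function.Injective (𝒞.chart R).r₂ :=
  chart_aux_inj R 𝒞.r₂ 𝒞.inj₂

/-- The chart rings of the family are free over the base. -/
theorem chart_B₁_free : Module.Free R (𝒞.chart R).B₁ :=
  inferInstanceAs (Module.Free R (R ⊗[k] 𝒞.A₁))

theorem chart_B₂_free : Module.Free R (𝒞.chart R).B₂ :=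
  inferInstanceAs (Module.Free R (R ⊗[k] 𝒞.A₂))

theorem chart_B₁₂_free : Module.Free R (𝒞.chart R).B₁₂ :=
  inferInstanceAs (Module.Free R (R ⊗[k] 𝒞.A₁₂))

theorem chart_finiteType₁ : Algebra.FiniteType R (𝒞.chart R).B₁ :=
  haveI := finiteType_A₁ 𝒞
  inferInstanceAs (Algebra.FiniteType R (R ⊗[k] 𝒞.A₁))

theorem chart_finiteType₂ : Algebra.FiniteType R (𝒞.chart R).B₂ :=
  haveI := finiteType_A₂ 𝒞
  inferInstanceAs (Algebra.FiniteType R (R ⊗[k] 𝒞.A₂))

/-- The frozen point `ε` of the family is the lift of the point `ε` of the curve. -/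
theorem epsR_eq_pointLift : 𝒞.epsR R = pointLift ((Algebra.ofId k R).comp 𝒞.ε) := rfl

end General

/-! ### Facts over an algebraically closed field `k` -/

section AlgClosed

variable {k : Type u} [Field k] [IsAlgClosed k] (𝒞 : CurveData k)

/-- Base changes of `A₁` to domains are domains. -/
theorem isDomain_tensor_A₁ (R : Type*) [CommRing R] [IsDomain R] [Algebra k R] :
    IsDomain (R ⊗[k] 𝒞.A₁) :=
  haveI := 𝒞.dom₁
  isDomain_tensorProduct_of_isAlgClosed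

/-- Base changes of `A₂` to domains are domains. -/
theorem isDomain_tensor_A₂ (R : Type*) [CommRing R] [IsDomain R] [Algebra k R] :
    IsDomain (R ⊗[k] 𝒞.A₂) :=
  haveI := 𝒞.dom₂
  isDomain_tensorProduct_of_isAlgClosed

/-- Base changes of `A₁₂` to domains are domains. -/
theorem isDomain_tensor_A₁₂ (R : Type*) [CommRing R] [IsDomain R] [Algebra k R] :
    IsDomain (R ⊗[k] 𝒞.A₁₂) :=
  haveI := isDomain_A₁₂ 𝒞
  isDomain_tensorProduct_of_isAlgClosed

/-- `κ ⊗ A₁` is a Dedekind domain for every algebraically closed extension `κ` of `k`. -/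
theorem isDedekindDomain_tensor_A₁ (κ : Type u) [Field κ] [Algebra k κ] [IsAlgClosed κ] :
    IsDedekindDomain (κ ⊗[k] 𝒞.A₁) := by
  haveI := isDomain_tensor_A₁ 𝒞 κ
  haveI := finiteType_A₁ 𝒞
  exact isDedekindDomain_of_locally_isStandardSmooth (K := κ)
    (locally_isStandardSmooth_tensor 𝒞.smooth₁ κ)

/-- `κ ⊗ A₂` is a Dedekind domain for every algebraically closed extension `κ` of `k`. -/
theorem isDedekindDomain_tensor_A₂ (κ : Type u) [Field κ] [Algebra k κ] [IsAlgClosed κ] :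
    IsDedekindDomain (κ ⊗[k] 𝒞.A₂) := by
  haveI := isDomain_tensor_A₂ 𝒞 κ
  haveI := finiteType_A₂ 𝒞
  exact isDedekindDomain_of_locally_isStandardSmooth (K := κ)
    (locally_isStandardSmooth_tensor 𝒞.smooth₂ κ)

/-- `A₁` is a Dedekind domain. -/
theorem isDedekindDomain_A₁ : IsDedekindDomain 𝒞.A₁ := by
  haveI := 𝒞.dom₁
  haveI := finiteType_A₁ 𝒞
  exact isDedekindDomain_of_locally_isStandardSmooth (K := k) 𝒞.smooth₁

/-- `A₂` is a Dedekind domain. -/
theorem isDedekindDomain_A₂ : IsDedekindDomain 𝒞.A₂ := by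
  haveI := 𝒞.dom₂
  haveI := finiteType_A₂ 𝒞
  exact isDedekindDomain_of_locally_isStandardSmooth (K := k) 𝒞.smooth₂

/-- `g` is transcendental over `k`. -/
theorem transcendental_g : Transcendental k 𝒞.g := by
  haveI := 𝒞.dom₂
  haveI := 𝒞.fin₂
  haveI := finiteType_A₂ 𝒞
  obtain ⟨m, hm⟩ := Ideal.exists_maximal 𝒞.A₂
  obtain ⟨φ, -⟩ := exists_point_ker_eq_of_isMaximal (K := k) m
  exact transcendental_of_finite_adjoin_singleton 𝒞.smooth₂ φ 𝒞.g

/-- The first chart has infinitely many `k`-points. -/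
theorem infinite_points_A₁ : Infinite (𝒞.A₁ →ₐ[k] k) :=
  haveI := 𝒞.dom₁
  haveI := finiteType_A₁ 𝒞
  infinite_points_of_transcendental 𝒞.f (transcendental_f 𝒞)

/-- The second chart has infinitely many `k`-points. -/
theorem infinite_points_A₂ : Infinite (𝒞.A₂ →ₐ[k] k) :=
  haveI := 𝒞.dom₂
  haveI := finiteType_A₂ 𝒞
  infinite_points_of_transcendental 𝒞.g (transcendental_g 𝒞)

theorem exists_basis_A₁ : ∃ (n : ℕ) (b : Fin n → 𝒞.A₁),
    Function.Bijective (fun p : Fin n → k[X] => ∑ i, Polynomial.aeval 𝒞.f (p i) * b i) :=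
  haveI := 𝒞.dom₁
  haveI := 𝒞.fin₁
  exists_basis_over_polynomial 𝒞.f (transcendental_f 𝒞)

theorem exists_basis_A₂ : ∃ (n : ℕ) (b : Fin n → 𝒞.A₂),
    Function.Bijective (fun p : Fin n → k[X] => ∑ i, Polynomial.aeval 𝒞.g (p i) * b i) :=
  haveI := 𝒞.dom₂
  haveI := 𝒞.fin₂
  exists_basis_over_polynomial 𝒞.g (transcendental_g 𝒞)

/-- The rank of `A₁` over `k[f]` (the degree of `f : C → P¹`). -/
noncomputable def rank₁ : ℕ := (exists_basis_A₁ 𝒞).choose

/-- A basis of `A₁` over `k[f]`. -/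
noncomputable def basis₁ : Fin (rank₁ 𝒞) → 𝒞.A₁ := (exists_basis_A₁ 𝒞).choose_spec.choose

/-- The rank of `A₂` over `k[g]`. -/
noncomputable def rank₂ : ℕ := (exists_basis_A₂ 𝒞).choose

/-- A basis of `A₂` over `k[g]`. -/
noncomputable def basis₂ : Fin (rank₂ 𝒞) → 𝒞.A₂ := (exists_basis_A₂ 𝒞).choose_spec.choose

theorem bijective_basis₁ : Function.Bijective
    (fun p : Fin (rank₁ 𝒞) → k[X] => ∑ i, Polynomial.aeval 𝒞.f (p i) * basis₁ 𝒞 i) :=
  (exists_basis_A₁ 𝒞).choose_spec.choose_spec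

theorem bijective_basis₂ : Function.Bijective
    (fun p : Fin (rank₂ 𝒞) → k[X] => ∑ i, Polynomial.aeval 𝒞.g (p i) * basis₂ 𝒞 i) :=
  (exists_basis_A₂ 𝒞).choose_spec.choose_spec

/-- `R ⊗ A₁` is free over `R[f]` on the basis `1 ⊗ basis₁`, for every `k`-algebra `R`. -/
theorem bijective_basis₁_tensor (R : Type*) [CommRing R] [Algebra k R] : Function.Bijective
    (fun p : Fin (rank₁ 𝒞) → R[X] =>
      ∑ i, Polynomial.aeval ((1 : R) ⊗ₜ[k] 𝒞.f) (p i) * ((1 : R) ⊗ₜ[k] basis₁ 𝒞 i)) :=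
  bijective_baseChange_of_bijective 𝒞.f (basis₁ 𝒞) (bijective_basis₁ 𝒞) R

/-- `R ⊗ A₂` is free over `R[g]` on the basis `1 ⊗ basis₂`, for every `k`-algebra `R`. -/
theorem bijective_basis₂_tensor (R : Type*) [CommRing R] [Algebra k R] : Function.Bijective
    (fun p : Fin (rank₂ 𝒞) → R[X] =>
      ∑ i, Polynomial.aeval ((1 : R) ⊗ₜ[k] 𝒞.g) (p i) * ((1 : R) ⊗ₜ[k] basis₂ 𝒞 i)) :=
  bijective_baseChange_of_bijective 𝒞.g (basis₂ 𝒞) (bijective_basis₂ 𝒞) R

/-- Span form of "`R ⊗ A₁` is finite over `R[f]`". -/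
theorem tensor_span_adjoin_f (R : Type u) [CommRing R] [Algebra k R] (x : R ⊗[k] 𝒞.A₁) :
    x ∈ Submodule.span (Algebra.adjoin R ({(1 : R) ⊗ₜ[k] 𝒞.f} : Set (R ⊗[k] 𝒞.A₁)))
      (Set.range fun i => ((1 : R) ⊗ₜ[k] basis₁ 𝒞 i : R ⊗[k] 𝒞.A₁)) := by
  obtain ⟨p, rfl⟩ := (bijective_basis₁_tensor 𝒞 R).2 x
  refine Submodule.sum_mem _ fun i _ => ?_
  have h1 : Polynomial.aeval ((1 : R) ⊗ₜ[k] 𝒞.f : R ⊗[k] 𝒞.A₁) (p i) ∈
      Algebra.adjoin R ({(1 : R) ⊗ₜ[k] 𝒞.f} : Set (R ⊗[k] 𝒞.A₁)) :=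
    Polynomial.aeval_mem_adjoin_singleton R _
  exact Submodule.smul_mem _
    (⟨_, h1⟩ : Algebra.adjoin R ({(1 : R) ⊗ₜ[k] 𝒞.f} : Set (R ⊗[k] 𝒞.A₁)))
    (Submodule.subset_span ⟨i, rfl⟩)

theorem tensor_span_adjoin_g (R : Type u) [CommRing R] [Algebra k R] (x : R ⊗[k] 𝒞.A₂) :
    x ∈ Submodule.span (Algebra.adjoin R ({(1 : R) ⊗ₜ[k] 𝒞.g} : Set (R ⊗[k] 𝒞.A₂)))
      (Set.range fun i => ((1 : R) ⊗ₜ[k] basis₂ 𝒞 i : R ⊗[k] 𝒞.A₂)) := by
  obtain ⟨p, rfl⟩ := (bijective_basis₂_tensor 𝒞 R).2 x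
  refine Submodule.sum_mem _ fun i _ => ?_
  have h1 : Polynomial.aeval ((1 : R) ⊗ₜ[k] 𝒞.g : R ⊗[k] 𝒞.A₂) (p i) ∈
      Algebra.adjoin R ({(1 : R) ⊗ₜ[k] 𝒞.g} : Set (R ⊗[k] 𝒞.A₂)) :=
    Polynomial.aeval_mem_adjoin_singleton R _
  exact Submodule.smul_mem _
    (⟨_, h1⟩ : Algebra.adjoin R ({(1 : R) ⊗ₜ[k] 𝒞.g} : Set (R ⊗[k] 𝒞.A₂)))
    (Submodule.subset_span ⟨i, rfl⟩)

theorem tensor_finite_adjoin_f (R : Type u) [CommRing R] [Algebra k R] :
    Module.Finite (Algebra.adjoin R ({(1 : R) ⊗ₜ[k] 𝒞.f} : Set (R ⊗[k] 𝒞.A₁)))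
      (R ⊗[k] 𝒞.A₁) := by
  classical
  refine ⟨⟨Finset.univ.image fun i => ((1 : R) ⊗ₜ[k] basis₁ 𝒞 i : R ⊗[k] 𝒞.A₁), ?_⟩⟩
  rw [eq_top_iff]
  rintro x -
  have := tensor_span_adjoin_f 𝒞 R x
  simpa using this

theorem tensor_finite_adjoin_g (R : Type u) [CommRing R] [Algebra k R] :
    Module.Finite (Algebra.adjoin R ({(1 : R) ⊗ₜ[k] 𝒞.g} : Set (R ⊗[k] 𝒞.A₂)))
      (R ⊗[k] 𝒞.A₂) := by
  classical
  refine ⟨⟨Finset.univ.image fun i => ((1 : R) ⊗ₜ[k] basis₂ 𝒞 i : R ⊗[k] 𝒞.A₂), ?_⟩⟩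
  rw [eq_top_iff]
  rintro x -
  have := tensor_span_adjoin_g 𝒞 R x
  simpa using this

/-! #### The same facts for the frozen family two-chart `𝒞.chart R` -/

/-- The basis `1 ⊗ basis₁` of `(𝒞.chart R).B₁` over `R[f]`. -/
noncomputable def chartBasis₁ (R : Type u) [CommRing R] [Algebra k R] :
    Fin (rank₁ 𝒞) → (𝒞.chart R).B₁ :=
  fun i => (1 : R) ⊗ₜ[k] basis₁ 𝒞 i

/-- The basis `1 ⊗ basis₂` of `(𝒞.chart R).B₂` over `R[g]`. -/
noncomputable def chartBasis₂ (R : Type u) [CommRing R] [Algebra k R] :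
    Fin (rank₂ 𝒞) → (𝒞.chart R).B₂ :=
  fun i => (1 : R) ⊗ₜ[k] basis₂ 𝒞 i

/-- `(𝒞.chart R).B₁` is free over `R[f]` on `chartBasis₁`: the map
`R[X]^n → B₁`, `p ↦ ∑ i, p i (f) * chartBasis₁ i` is bijective. -/
theorem chart_bijective_basis₁ (R : Type u) [CommRing R] [Algebra k R] : Function.Bijective
    (fun p : Fin (rank₁ 𝒞) → R[X] =>
      ∑ i, Polynomial.aeval (𝒞.chart R).f (p i) * chartBasis₁ 𝒞 R i) :=
  bijective_basis₁_tensor 𝒞 R

/-- `(𝒞.chart R).B₂` is free over `R[g]` on `chartBasis₂`. -/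
theorem chart_bijective_basis₂ (R : Type u) [CommRing R] [Algebra k R] : Function.Bijective
    (fun p : Fin (rank₂ 𝒞) → R[X] =>
      ∑ i, Polynomial.aeval (𝒞.chart R).g (p i) * chartBasis₂ 𝒞 R i) :=
  bijective_basis₂_tensor 𝒞 R

/-- `B₁ = R ⊗ A₁` is a finite module over the subalgebra `R[f]`. -/
theorem chart_finite_adjoin_f (R : Type u) [CommRing R] [Algebra k R] :
    Module.Finite (Algebra.adjoin R ({(𝒞.chart R).f} : Set (𝒞.chart R).B₁)) (𝒞.chart R).B₁ :=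
  tensor_finite_adjoin_f 𝒞 R

/-- `B₂ = R ⊗ A₂` is a finite module over the subalgebra `R[g]`. -/
theorem chart_finite_adjoin_g (R : Type u) [CommRing R] [Algebra k R] :
    Module.Finite (Algebra.adjoin R ({(𝒞.chart R).g} : Set (𝒞.chart R).B₂)) (𝒞.chart R).B₂ :=
  tensor_finite_adjoin_g 𝒞 R

/-- The chart rings over an algebraically closed field are Dedekind domains. -/
theorem chart_isDedekindDomain₁ (κ : Type u) [Field κ] [Algebra k κ] [IsAlgClosed κ] :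
    IsDedekindDomain (𝒞.chart κ).B₁ :=
  isDedekindDomain_tensor_A₁ 𝒞 κ

theorem chart_isDedekindDomain₂ (κ : Type u) [Field κ] [Algebra k κ] [IsAlgClosed κ] :
    IsDedekindDomain (𝒞.chart κ).B₂ :=
  isDedekindDomain_tensor_A₂ 𝒞 κ

/-- The chart rings over a domain are domains. -/
theorem chart_isDomain₁ (R : Type u) [CommRing R] [IsDomain R] [Algebra k R] :
    IsDomain (𝒞.chart R).B₁ :=
  isDomain_tensor_A₁ 𝒞 R

theorem chart_isDomain₂ (R : Type u) [CommRing R] [IsDomain R] [Algebra k R] :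
    IsDomain (𝒞.chart R).B₂ :=
  isDomain_tensor_A₂ 𝒞 R

theorem chart_isDomain₁₂ (R : Type u) [CommRing R] [IsDomain R] [Algebra k R] :
    IsDomain (𝒞.chart R).B₁₂ :=
  isDomain_tensor_A₁₂ 𝒞 R

/-- Maximal ideals of the first chart ring over an algebraically closed field `κ` are exactly
the kernels of the `κ`-valued points of `A₁`. -/
theorem chart_existsUnique_point₁ (κ : Type u) [Field κ] [Algebra k κ] [IsAlgClosed κ]
    (m : Ideal (𝒞.chart κ).B₁) [m.IsMaximal] :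
    ∃! x : 𝒞.A₁ →ₐ[k] κ, RingHom.ker (pointLift x) = m := by
  haveI := finiteType_A₁ 𝒞
  let m' : Ideal (κ ⊗[k] 𝒞.A₁) := m
  have hm' : m'.IsMaximal := ‹m.IsMaximal›
  exact existsUnique_ker_pointLift_eq_of_isMaximal (A := 𝒞.A₁) (κ := κ) m'

/-- Maximal ideals of the second chart ring over an algebraically closed field `κ` are exactly
the kernels of the `κ`-valued points of `A₂`. -/
theorem chart_existsUnique_point₂ (κ : Type u) [Field κ] [Algebra k κ] [IsAlgClosed κ]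
    (m : Ideal (𝒞.chart κ).B₂) [m.IsMaximal] :
    ∃! x : 𝒞.A₂ →ₐ[k] κ, RingHom.ker (pointLift x) = m := by
  haveI := finiteType_A₂ 𝒞
  let m' : Ideal (κ ⊗[k] 𝒞.A₂) := m
  have hm' : m'.IsMaximal := ‹m.IsMaximal›
  exact existsUnique_ker_pointLift_eq_of_isMaximal (A := 𝒞.A₂) (κ := κ) m'

end AlgClosed

end Fermat.Agent.S25.Lib.Curve

/-! ### Appended (v2): zero loci of `f`, `g`; the overlap ring over a field -/

namespace Fermat.Agent.S25.Lib.Curve

open Fermat.Agent.S25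

open scoped TensorProduct Polynomial

section Appended

variable {k : Type u} [Field k] (𝒞 : CurveData k)

/-- `A₁ ⧸ (f)` is finite-dimensional over `k`. -/
theorem finite_quotient_f : Module.Finite k (𝒞.A₁ ⧸ Ideal.span ({𝒞.f} : Set 𝒞.A₁)) :=
  haveI := 𝒞.fin₁
  finite_quotient_span_singleton 𝒞.f

/-- `A₂ ⧸ (g)` is finite-dimensional over `k`. -/
theorem finite_quotient_g : Module.Finite k (𝒞.A₂ ⧸ Ideal.span ({𝒞.g} : Set 𝒞.A₂)) :=
  haveI := 𝒞.fin₂
  finite_quotient_span_singleton 𝒞.g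

/-- Only finitely many points of the first chart lie on `V(f)`. -/
theorem finite_points_vanishing_f (κ : Type*) [Field κ] [Algebra k κ] :
    Finite {x : 𝒞.A₁ →ₐ[k] κ // x 𝒞.f = 0} :=
  haveI := 𝒞.fin₁
  finite_points_vanishing 𝒞.f κ

/-- Only finitely many points of the second chart lie on `V(g)` (the complement of the first
chart). -/
theorem finite_points_vanishing_g (κ : Type*) [Field κ] [Algebra k κ] :
    Finite {x : 𝒞.A₂ →ₐ[k] κ // x 𝒞.g = 0} :=
  haveI := 𝒞.fin₂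
  finite_points_vanishing 𝒞.g κ

/-- `f ≠ 0`. -/
theorem f_ne_zero : 𝒞.f ≠ 0 := by
  haveI := 𝒞.dom₁
  intro h0
  have hnt : Nontrivial 𝒞.A₁₂ := 𝒞.inj₁.nontrivial
  have h1 := 𝒞.fg
  rw [h0, map_zero, zero_mul] at h1
  exact zero_ne_one h1

/-- `g ≠ 0`. -/
theorem g_ne_zero : 𝒞.g ≠ 0 := by
  haveI := 𝒞.dom₁
  intro h0
  have hnt : Nontrivial 𝒞.A₁₂ := 𝒞.inj₁.nontrivial
  have h1 := 𝒞.fg
  rw [h0, map_zero, mul_zero] at h1
  exact zero_ne_one h1

/-- The overlap ring over an algebraically closed field is a Dedekind domain. -/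
theorem chart_isDedekindDomain₁₂ [IsAlgClosed k] (κ : Type u) [Field κ] [Algebra k κ]
    [IsAlgClosed κ] : IsDedekindDomain (𝒞.chart κ).B₁₂ := by
  haveI := chart_isDedekindDomain₁ 𝒞 κ
  haveI := chart_isDomain₁₂ 𝒞 κ
  letI := (𝒞.chart κ).algebra₁
  haveI := (𝒞.chart κ).isLocalization₁
  have hf : (𝒞.chart κ).f ≠ 0 := by
    intro h0
    have h1 := (𝒞.chart κ).fg
    rw [h0, map_zero, zero_mul] at h1
    exact zero_ne_one h1
  exact IsLocalization.isDedekindDomain (𝒞.chart κ).B₁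
    (powers_le_nonZeroDivisors_of_noZeroDivisors hf) (𝒞.chart κ).B₁₂

end Appended

end Fermat.Agent.S25.Lib.Curve
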